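import Fermat.Agent.CycloTower.Levels
import Fermat.Agent.Regular.CyclotomicUnitIndex

/-!
# Iwasawa's theorem on the cyclotomic tower

If no class of `ℚ(ζ_p)` has order `p` and its units are cyclotomic units times `p`-th powers, the same holds
in `ℚ(ζ_(p^(n+1)))` for every `n`.
-/

set_option autoImplicit false

noncomputable section

open NumberField
open scoped Pointwise

namespace FA.CycloTower

variable {p : ℕ} [Fact p.Prime]

/-- Away from `ζ - 1` the field `ℚ(ζ_(p^(k+1)))` is unramified over every subfield. -/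
theorem ramificationIdx_eq_one {F L : Type} [Field F] [NumberField F] [Field L] [NumberField L] [Algebra F L]
    {k : ℕ} [IsCyclotomicExtension {p ^ (k + 1)} ℚ L] {ζ : L} (hζ : IsPrimitiveRoot ζ (p ^ (k + 1)))
    {P : Ideal (𝓞 L)} [P.IsPrime] (hP : P ≠ ⊥) (hπ : hζ.toInteger - 1 ∉ P) :
    P.ramificationIdx (𝓞 F) = 1 := by
  have hp : p.Prime := Fact.out
  have : NeZero (p ^ (k + 1)) := ⟨pow_ne_zero _ hp.ne_zero⟩
  obtain ⟨g, hg⟩ := (IsPrincipalIdealRing.principal (P.under ℤ)).principal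
  have hg0 : g ≠ 0 := fun e => hP (Ideal.eq_bot_of_comap_eq_bot (R := ℤ) (hg.trans (by simp [e])))
  have hgp : Prime g := (Ideal.span_singleton_prime hg0).mp (by
    rw [← Ideal.submodule_span_eq, ← hg]; infer_instance)
  have : Fact g.natAbs.Prime := ⟨Int.prime_iff_natAbs_prime.mp hgp⟩
  have : P.LiesOver (Ideal.span {(g.natAbs : ℤ)}) := ⟨by rw [Int.span_natAbs]; exact hg.symm⟩
  have hgm : (g.natAbs : 𝓞 L) ∈ P := by
    have h : (g : ℤ) ∈ P.under ℤ := hg ▸ Ideal.mem_span_singleton_self g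
    rw [Ideal.under_def, Ideal.mem_comap, algebraMap_int_eq, eq_intCast] at h
    rcases Int.natAbs_eq g with e | e <;> rw [e] at h <;> simpa using h
  have hndvd : ¬ g.natAbs ∣ p ^ (k + 1) := fun h => hπ (by
    rw [(Nat.prime_dvd_prime_iff_eq (Fact.out : g.natAbs.Prime) hp).mp ((Fact.out : g.natAbs.Prime).dvd_of_dvd_pow h)]
      at hgm
    refine ‹P.IsPrime›.mem_of_pow_mem (Module.finrank ℚ L) ?_
    have hmem : (hζ.toInteger - 1) ^ Module.finrank ℚ L ∈ Ideal.span {hζ.toInteger - 1} ^ Module.finrank ℚ L :=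
      Ideal.pow_mem_pow (Ideal.mem_span_singleton_self _) _
    rw [← IsCyclotomicExtension.Rat.map_eq_span_zeta_sub_one_pow p k hζ] at hmem
    refine (Ideal.map_le_iff_le_comap.mpr ?_) hmem
    rw [Ideal.span_singleton_le_iff_mem, Ideal.mem_comap]
    simpa using hgm)
  have h1 : P.ramificationIdx ℤ = 1 :=
    IsCyclotomicExtension.Rat.ramificationIdx_eq_of_not_dvd g.natAbs L P (m := p ^ (k + 1)) hndvd
  exact Nat.dvd_one.mp (h1 ▸ Ideal.ramificationIdx_above_dvd (P.under (𝓞 F)) P)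

/-- The data of a level. -/
def LevelGood (p n : ℕ) (K : Type) [Field K] [NumberField K] : Prop :=
  ¬ p ∣ classNumber K ∧ ∀ ζ : 𝓞 K, IsPrimitiveRoot ζ (p ^ (n + 1)) → ∀ u : (𝓞 K)ˣ,
    ∃ s ∈ levelUnits p ζ, ∃ v : (𝓞 K)ˣ, u = s * v ^ p

/-- **The induction step**. -/
theorem levelGood_succ {n : ℕ} (hn : Odd p ∨ 1 ≤ n)
    (ih : ∀ (K : Type) [Field K] [NumberField K] [IsCyclotomicExtension {p ^ (n + 1)} ℚ K], LevelGood p n K)
    (L : Type) [Field L] [NumberField L] [IsCyclotomicExtension {p ^ (n + 2)} ℚ L] : LevelGood p (n + 1) L := by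
  have hp : p.Prime := Fact.out
  have : NeZero (p ^ (n + 2)) := ⟨pow_ne_zero _ hp.ne_zero⟩
  have : NeZero (p ^ (n + 1)) := ⟨pow_ne_zero _ hp.ne_zero⟩
  suffices ∀ ζ' : 𝓞 L, IsPrimitiveRoot ζ' (p ^ (n + 2)) → ¬ p ∣ classNumber L ∧
      ∀ u : (𝓞 L)ˣ, ∃ s ∈ levelUnits p ζ', ∃ v : (𝓞 L)ˣ, u = s * v ^ p from
    ⟨(this _ (IsCyclotomicExtension.zeta_spec (p ^ (n + 2)) ℚ L).toInteger_isPrimitiveRoot).1,
      fun ζ' h => (this ζ' h).2⟩
  intro ζ' hζ'
  have hζL : IsPrimitiveRoot (ζ' : L) (p ^ (n + 2)) :=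
    hζ'.map_of_injective (f := algebraMap (𝓞 L) L) (IsFractionRing.injective (𝓞 L) L)
  have hζp : IsPrimitiveRoot ((ζ' : L) ^ p) (p ^ (n + 1)) := hζL.pow (pow_pos hp.pos _) (pow_succ' p (n + 1))
  set F := IntermediateField.adjoin ℚ {(ζ' : L) ^ p}
  have : IsCyclotomicExtension {p ^ (n + 1)} ℚ F := hζp.intermediateField_adjoin_isCyclotomicExtension ℚ
  have : IsGalois ℚ L := IsCyclotomicExtension.isGalois {p ^ (n + 2)} ℚ L
  have hdeg : Module.finrank F L = p := by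
    have h := Module.finrank_mul_finrank ℚ F L
    rw [IsCyclotomicExtension.Rat.finrank (p ^ (n + 1)) F, IsCyclotomicExtension.Rat.finrank (p ^ (n + 2)) L,
      Nat.totient_prime_pow_succ hp, Nat.totient_prime_pow_succ hp, pow_succ p n, mul_right_comm] at h
    exact Nat.eq_of_mul_eq_mul_left (pow_pos hp.pos n) (Nat.eq_of_mul_eq_mul_right (Nat.sub_pos_of_lt hp.one_lt) h)
  have hζF : IsPrimitiveRoot (⟨(ζ' : L) ^ p, IntermediateField.mem_adjoin_simple_self ℚ _⟩ : F) (p ^ (n + 1)) :=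
    IsPrimitiveRoot.of_map_of_injective (f := F.val) (by exact hζp) F.val.injective
  obtain ⟨hhF, hUF⟩ := ih F
  set ζ := hζF.toInteger
  have hζmap : algebraMap (𝓞 F) (𝓞 L) ζ = ζ' ^ p := RingOfIntegers.ext rfl
  have hG : IsCyclic (L ≃ₐ[F] L) :=
    isCyclic_of_prime_card (p := p) (by rw [IsGalois.card_aut_eq_finrank, hdeg])
  obtain ⟨σ, hσ⟩ := hG.exists_generator
  have hlam : Prime (ζ' - 1) := hζL.zeta_sub_one_prime
  have hπ0 : ζ' - 1 ≠ 0 := hlam.ne_zero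
  have hπ : (Ideal.span {ζ' - 1}).IsMaximal :=
    ((Ideal.span_singleton_prime hπ0).mpr hlam).isMaximal (fun e => hπ0 (Ideal.span_singleton_eq_bot.mp e))
  have hπfix : ∀ g : L ≃ₐ[F] L, g • Ideal.span {ζ' - 1} = Ideal.span {ζ' - 1} := fun g => by
    obtain ⟨w, -, hw⟩ := exists_smul_lam hζ' g
    rw [smul_span, hw, Ideal.span_singleton_mul_left_unit w.isUnit]
  have hunr : ∀ P : Ideal (𝓞 L), P.IsPrime → P ≠ ⊥ → ζ' - 1 ∉ P → P.ramificationIdx (𝓞 F) = 1 :=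
    fun P _ hP hπP => ramificationIdx_eq_one (k := n + 1) hζL hP hπP
  have hS : ∀ g : L ≃ₐ[F] L, ∀ s ∈ levelUnits p ζ', actU g s ∈ levelUnits p ζ' := fun g s hs =>
    actU_mem_levelUnits hζ' g hs
  have hU : ∀ u : (𝓞 F)ˣ, ∃ s ∈ levelUnits p ζ', ∃ v : (𝓞 F)ˣ, u = normU F s * v ^ p := fun u => by
    obtain ⟨s, hs, v, rfl⟩ := hUF ζ hζF.toInteger_isPrimitiveRoot u
    obtain ⟨t, ht, rfl⟩ := levelUnits_le_map_normU hζ' hdeg hn hζmap hs
    exact ⟨t, ht, v, rfl⟩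
  refine ⟨not_dvd_classNumber_step hσ hdeg hπ hπfix hunr hhF fun u => ?_, ?_⟩
  · obtain ⟨s, -, v, rfl⟩ := hU u
    refine ⟨s * Units.map (algebraMap (𝓞 F) (𝓞 L)).toMonoidHom v, ?_⟩
    rw [map_mul]
    congr 1
    refine Units.ext (RingOfIntegers.ext ?_)
    rw [Units.val_pow_eq_pow_val, ← hdeg]
    show Algebra.norm F (algebraMap F L ((v : 𝓞 F) : F)) = ((v : 𝓞 F) : F) ^ Module.finrank F L
    rw [Algebra.norm_algebraMap]
  · obtain ⟨w, hwS, hw⟩ := exists_smul_lam hζ' σ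
    exact units_step hσ hdeg hπ0 hπ hπfix hunr hhF hS hwS hw hU

/-- The base: `cycloUnits` lies in the units of level one for any primitive root. -/
theorem cycloUnits_le_levelUnits (h5 : 5 ≤ p) {K : Type} [Field K] [NumberField K]
    [IsCyclotomicExtension {p} ℚ K] {ζ : 𝓞 K} (hζ : IsPrimitiveRoot ζ (p ^ (0 + 1))) :
    FA.Regular.cycloUnits p K ≤ levelUnits p ζ := by
  have hp : p.Prime := Fact.out
  have : NeZero p := ⟨hp.ne_zero⟩
  have hz := FA.Ext.zetaInt_spec p K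
  have hζ1 : IsPrimitiveRoot ζ p := by simpa using hζ
  obtain ⟨c, -, hc⟩ := hζ1.eq_pow_of_pow_eq_one hz.pow_eq_one
  have hcp : ¬ p ∣ c := fun ⟨d, hd⟩ => hz.ne_one hp.one_lt (by
    rw [← hc, hd, pow_mul, hζ1.pow_eq_one, one_pow])
  obtain ⟨zu, hzu⟩ := hζ1.isUnit hp.ne_zero
  refine sup_le (fun t ht => ?_) ((Subgroup.closure_le _).mpr ?_)
  · obtain ⟨r, hr⟩ := FA.Ext.torsion_eq_neg_zeta_pow K p (by omega) ht
    have : t = ((-1) * zu ^ c) ^ r := Units.ext (by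
      simp only [Units.val_pow_eq_pow_val, Units.val_neg, neg_one_mul, hr, hzu, hc])
    rw [this]
    exact pow_mem (mul_mem neg_one_mem_levelUnits (pow_mem (zeta_mem_levelUnits hzu) c)) r
  · rintro _ ⟨⟨a, ha⟩, rfl⟩
    obtain ⟨v, hv, hv'⟩ := exists_levelUnit (n := 0) hζ hcp
    have ha' : ¬ p ∣ c * a := fun h => (hp.dvd_mul.mp h).elim hcp
      fun h => ha ((ZMod.natCast_eq_zero_iff _ _).mpr h)
    have h : (FA.Regular.cycU p K ha * v : (𝓞 K)ˣ) ∈ levelUnits p ζ := by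
      refine mem_levelUnits_of_mul_eq hζ ha' ?_
      rw [Units.val_mul, mul_assoc, hv', pow_mul, hc]
      exact geom_sum_mul _ a
    exact (mul_mem_cancel_right hv).mp h

/-- **Iwasawa's theorem**. -/
theorem levelGood_all (h5 : 5 ≤ p)
    (base : ∀ (K : Type) [Field K] [NumberField K] [IsCyclotomicExtension {p} ℚ K],
      ¬ p ∣ classNumber K ∧ ∀ u : (𝓞 K)ˣ, ∃ c ∈ FA.Regular.cycloUnits p K, ∃ w : (𝓞 K)ˣ, u = c * w ^ p)
    (n : ℕ) (K : Type) [Field K] [NumberField K] [IsCyclotomicExtension {p ^ (n + 1)} ℚ K] : LevelGood p n K := by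
  have hodd : Odd p := (Fact.out : p.Prime).odd_of_ne_two (by omega)
  induction n generalizing K with
  | zero =>
    have : IsCyclotomicExtension {p} ℚ K := by simpa using (inferInstance : IsCyclotomicExtension {p ^ (0 + 1)} ℚ K)
    obtain ⟨h1, h2⟩ := base K
    refine ⟨h1, fun ζ hζ u => ?_⟩
    obtain ⟨c, hc, w, hw⟩ := h2 u
    exact ⟨c, cycloUnits_le_levelUnits h5 hζ hc, w, hw⟩
  | succ n ih => exact levelGood_succ (Or.inl hodd) (fun K _ _ _ => ih K) K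

end FA.CycloTower
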