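import Mathlib

/-!
# Ideals fixed by the Galois group when only one prime ramifies

In a Galois extension `L/F` of number fields in which every prime not containing `π` is unramified and `(π)` is
a fixed maximal ideal, a fixed ideal is a power of `(π)` times an extended ideal.
-/

set_option autoImplicit false
set_option linter.unusedSectionVars false

noncomputable section

open NumberField UniqueFactorizationMonoid
open scoped Pointwise

namespace FA.CycloTower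

variable {F L : Type*} [Field F] [NumberField F] [Field L] [NumberField L] [Algebra F L]

theorem smul_map_algebraMap (g : L ≃ₐ[F] L) (J : Ideal (𝓞 F)) :
    g • J.map (algebraMap (𝓞 F) (𝓞 L)) = J.map (algebraMap (𝓞 F) (𝓞 L)) := by
  rw [Ideal.pointwise_smul_def, Ideal.map_map]
  congr 1
  ext x
  exact congrArg (fun y : L => y) (g.commutes (x : F))

/-- An unramified prime: the extended ideal contains every ideal inside all primes over it. -/
theorem map_under_dvd [IsGalois F L] {P B : Ideal (𝓞 L)} [P.IsPrime] (hP : P ≠ ⊥)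
    (hunr : P.ramificationIdx (𝓞 F) = 1) (hfix : ∀ g : L ≃ₐ[F] L, g • B = B) (hBP : B ≤ P) :
    (P.under (𝓞 F)).map (algebraMap (𝓞 F) (𝓞 L)) ∣ B := by
  classical
  set q := P.under (𝓞 F)
  set M := q.map (algebraMap (𝓞 F) (𝓞 L))
  have hq : q ≠ ⊥ := fun h => hP (Ideal.eq_bot_of_comap_eq_bot h)
  have : q.IsMaximal := Ideal.IsPrime.isMaximal inferInstance hq
  have hM : M ≠ ⊥ := fun h => hq ((Ideal.map_eq_bot_iff_of_injective
    (FaithfulSMul.algebraMap_injective (𝓞 F) (𝓞 L))).mp h)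
  have hover : ∀ Q ∈ normalizedFactors M, Q.IsPrime ∧ B ≤ Q ∧ (normalizedFactors M).count Q = 1 := fun Q hQ => by
    obtain ⟨hQp, hMQ⟩ := (Ideal.mem_normalizedFactors_iff hM).mp hQ
    have : Q.LiesOver q := ⟨(Ideal.IsMaximal.eq_of_le inferInstance (hQp.under (𝓞 F)).ne_top
      (Ideal.map_le_iff_le_comap.mp hMQ))⟩
    obtain ⟨g, rfl⟩ := Ideal.exists_smul_eq_of_isGaloisGroup q P Q (L ≃ₐ[F] L)
    refine ⟨hQp, ?_, ?_⟩
    · calc B = g • B := (hfix g).symm
        _ ≤ g • P := Ideal.pointwise_smul_le_pointwise_smul_iff.mpr hBP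
    · rw [← Ideal.IsDedekindDomain.ramificationIdx_eq_normalizedFactors_count q (g • P) hM,
        Ideal.ramificationIdx_smul, hunr]
  have hprod : (normalizedFactors M).prod = ∏ Q ∈ (normalizedFactors M).toFinset, Q := by
    rw [Finset.prod, Multiset.toFinset_val,
      Multiset.dedup_eq_self.mpr (Multiset.nodup_iff_count_eq_one.mpr fun Q hQ => (hover Q hQ).2.2), Multiset.map_id']
  rw [← Ideal.prod_normalizedFactors_eq_self hM, hprod]
  refine Finset.prod_dvd_of_coprime (fun Q hQ R hR hne => ?_) fun Q hQ => ?_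
  · have hQ' := Multiset.mem_toFinset.mp hQ
    have hR' := Multiset.mem_toFinset.mp hR
    have : Q.IsMaximal := (hover Q hQ').1.isMaximal (prime_of_normalized_factor Q hQ').ne_zero
    have : R.IsMaximal := (hover R hR').1.isMaximal (prime_of_normalized_factor R hR').ne_zero
    exact Ideal.isCoprime_iff_sup_eq.mpr (Ideal.IsMaximal.coprime_of_ne ‹_› ‹_› hne)
  · exact Ideal.dvd_iff_le.mpr (hover Q (Multiset.mem_toFinset.mp hQ)).2.1

/-- **Fixed ideals**. -/
theorem exists_decomp [IsGalois F L] {π : 𝓞 L} (hπ : (Ideal.span {π}).IsMaximal)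
    (hπfix : ∀ g : L ≃ₐ[F] L, g • Ideal.span {π} = Ideal.span {π})
    (hunr : ∀ P : Ideal (𝓞 L), P.IsPrime → P ≠ ⊥ → π ∉ P → P.ramificationIdx (𝓞 F) = 1) (B : Ideal (𝓞 L)) (hB : B ≠ ⊥)
    (hfix : ∀ g : L ≃ₐ[F] L, g • B = B) :
    ∃ (k : ℕ) (J : Ideal (𝓞 F)), B = Ideal.span {π} ^ k * J.map (algebraMap (𝓞 F) (𝓞 L)) := by
  revert hB hfix
  refine (wellFounded_dvdNotUnit (α := Ideal (𝓞 L))).induction (C := fun B => B ≠ ⊥ →
    (∀ g : L ≃ₐ[F] L, g • B = B) →
    ∃ (k : ℕ) (J : Ideal (𝓞 F)), B = Ideal.span {π} ^ k * J.map (algebraMap (𝓞 F) (𝓞 L))) B fun B ih hB hfix => ?_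
  by_cases htop : B = ⊤
  · exact ⟨0, ⊤, by rw [htop, pow_zero, one_mul, Ideal.map_top]⟩
  obtain ⟨P, hP, hBP⟩ := Ideal.exists_le_maximal B htop
  have := hP.isPrime
  have hP0 : P ≠ ⊥ := fun e => hB (le_bot_iff.mp (e ▸ hBP))
  obtain ⟨M, ⟨k₀, J₀, hM₀⟩, hMB, hMtop, hMfix, hM0⟩ : ∃ M : Ideal (𝓞 L),
      (∃ (k : ℕ) (J : Ideal (𝓞 F)), M = Ideal.span {π} ^ k * J.map (algebraMap (𝓞 F) (𝓞 L))) ∧
      M ∣ B ∧ M ≠ ⊤ ∧ (∀ g : L ≃ₐ[F] L, g • M = M) ∧ M ≠ ⊥ := by
    by_cases hπP : π ∈ P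
    · obtain rfl : Ideal.span {π} = P :=
        hπ.eq_of_le hP.ne_top ((Ideal.span_singleton_le_iff_mem _).mpr hπP)
      exact ⟨_, ⟨1, ⊤, by rw [pow_one, Ideal.map_top, ← Ideal.one_eq_top, mul_one]⟩, Ideal.dvd_iff_le.mpr hBP,
        hπ.ne_top, hπfix, hP0⟩
    · refine ⟨_, ⟨0, P.under (𝓞 F), by rw [pow_zero, one_mul]⟩,
        map_under_dvd hP0 (hunr P hP.isPrime hP0 hπP) hfix hBP, fun e => hP.ne_top ?_,
        fun g => smul_map_algebraMap g _, fun e => hP0 (Ideal.eq_bot_of_comap_eq_bot ((Ideal.map_eq_bot_iff_of_injective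
          (FaithfulSMul.algebraMap_injective (𝓞 F) (𝓞 L))).mp e))⟩
      exact top_unique (e ▸ Ideal.map_comap_le)
  obtain ⟨B', rfl⟩ := hMB
  have hB' : B' ≠ ⊥ := fun e => hB (by rw [e, Ideal.mul_bot])
  obtain ⟨k, J, hJ⟩ := ih B' ⟨hB', M, fun hu => hMtop (Ideal.isUnit_iff.mp hu), mul_comm _ _⟩ hB' fun g => by
    have h := hfix g
    rw [smul_mul', hMfix] at h
    exact mul_left_cancel₀ hM0 h
  exact ⟨k₀ + k, J₀ * J, by rw [hM₀, hJ, Ideal.map_mul, pow_add]; ring⟩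

end FA.CycloTower
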