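import Fermat.Agent.CycloTower.Step

/-!
# The step from `ℚ(ζ_(p^(n+1)))` to `ℚ(ζ_(p^(n+2)))`

`levelUnits p ζ` is generated by `-1`, `ζ` and the quotients `(ζ^a - 1)/(ζ - 1)`, `p ∤ a`.  It is stable under the
Galois group and the norm maps it onto the one of the level below.
-/

set_option autoImplicit false
set_option linter.unusedSectionVars false

noncomputable section

open NumberField Finset
open scoped Pointwise

namespace FA.CycloTower

/-- The cyclotomic units for the root of unity `ζ`. -/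
def levelUnits (p : ℕ) {R : Type*} [CommRing R] (ζ : R) : Subgroup Rˣ :=
  Subgroup.closure {u | u = -1 ∨ (u : R) = ζ ∨ ∃ a : ℕ, ¬ p ∣ a ∧ (u : R) * (ζ - 1) = ζ ^ a - 1}

section Ring

variable {p : ℕ} [Fact p.Prime] {R : Type*} [CommRing R] [IsDomain R] {ζ : R} {n : ℕ}

theorem neg_one_mem_levelUnits : (-1 : Rˣ) ∈ levelUnits p ζ := Subgroup.subset_closure (Or.inl rfl)

theorem zeta_mem_levelUnits {u : Rˣ} (h : (u : R) = ζ) : u ∈ levelUnits p ζ :=
  Subgroup.subset_closure (Or.inr (Or.inl h))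

theorem zeta_sub_one_ne_zero (hζ : IsPrimitiveRoot ζ (p ^ (n + 1))) : ζ - 1 ≠ 0 :=
  sub_ne_zero.mpr (hζ.ne_one (Nat.one_lt_pow n.succ_ne_zero (Fact.out : p.Prime).one_lt))

theorem exists_levelUnit (hζ : IsPrimitiveRoot ζ (p ^ (n + 1))) {a : ℕ} (ha : ¬ p ∣ a) :
    ∃ u : Rˣ, u ∈ levelUnits p ζ ∧ (u : R) * (ζ - 1) = ζ ^ a - 1 := by
  have hp : p.Prime := Fact.out
  have hu : IsUnit (∑ i ∈ range a, ζ ^ i) := hζ.geom_sum_isUnit (Nat.one_lt_pow n.succ_ne_zero hp.one_lt)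
    ((Nat.coprime_pow_right_iff n.succ_pos _ _).mpr (hp.coprime_iff_not_dvd.mpr ha).symm)
  exact ⟨hu.unit, Subgroup.subset_closure (Or.inr (Or.inr ⟨a, ha, geom_sum_mul ζ a⟩)), geom_sum_mul ζ a⟩

theorem mem_levelUnits_of_mul_eq (hζ : IsPrimitiveRoot ζ (p ^ (n + 1))) {a : ℕ} (ha : ¬ p ∣ a) {u : Rˣ}
    (h : (u : R) * (ζ - 1) = ζ ^ a - 1) : u ∈ levelUnits p ζ := by
  obtain ⟨v, hv, hv'⟩ := exists_levelUnit hζ ha
  rwa [Units.ext (mul_right_cancel₀ (zeta_sub_one_ne_zero hζ) (h.trans hv'.symm))]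

/-- A unit ring automorphism stabilises the cyclotomic units. -/
theorem map_mem_levelUnits (hζ : IsPrimitiveRoot ζ (p ^ (n + 1))) (f : R →+* R) {b : ℕ} (hb : ¬ p ∣ b)
    (hf : f ζ = ζ ^ b) {u : Rˣ} (hu : u ∈ levelUnits p ζ) : Units.map f.toMonoidHom u ∈ levelUnits p ζ := by
  suffices levelUnits p ζ ≤ (levelUnits p ζ).comap (Units.map f.toMonoidHom) from this hu
  refine (Subgroup.closure_le _).mpr ?_
  rintro u (rfl | h | ⟨a, ha, h⟩)
  · show Units.map f.toMonoidHom (-1) ∈ levelUnits p ζ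
    rw [show Units.map f.toMonoidHom (-1 : Rˣ) = -1 from Units.ext (by simp)]
    exact neg_one_mem_levelUnits
  · have : Units.map f.toMonoidHom u = u ^ b := Units.ext (by
      rw [Units.val_pow_eq_pow_val, Units.coe_map, h]; exact hf)
    show Units.map f.toMonoidHom u ∈ levelUnits p ζ
    rw [this]
    exact pow_mem (zeta_mem_levelUnits h) b
  · obtain ⟨ub, hub, hub'⟩ := exists_levelUnit hζ hb
    have h' : (Units.map f.toMonoidHom u * ub : Rˣ) ∈ levelUnits p ζ := by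
      refine mem_levelUnits_of_mul_eq hζ (fun h => (Fact.out : p.Prime).dvd_mul.mp h |>.elim hb ha) ?_
      rw [Units.val_mul, mul_assoc, hub', pow_mul, ← hf, ← map_pow]
      simpa using congrArg f h
    exact (mul_mem_cancel_right hub).mp h'

end Ring

variable {F L : Type} [Field F] [NumberField F] [Field L] [NumberField L] [Algebra F L] [IsGalois F L]
  {p : ℕ} [Fact p.Prime] {n : ℕ} [IsCyclotomicExtension {p ^ (n + 2)} ℚ L]

/-- A generator of a degree `p` extension by `ζ_(p^(n+2))`: norms of `y` and `y - 1`. -/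
theorem norm_of_pow_eq (hdeg : Module.finrank F L = p) {ω : L} (hω : IsPrimitiveRoot ω p)
    {y : L} {c : F} (hy : y ^ p = algebraMap F L c) (hy0 : y ≠ 0)
    (hinj : ∀ g h : L ≃ₐ[F] L, g y = h y → g = h) :
    Algebra.norm F y = (-1) ^ (p + 1) * c ∧ Algebra.norm F (y - 1) = (-1) ^ (p + 1) * (c - 1) := by
  classical
  have hp : p.Prime := Fact.out
  have hmem : ∀ g : L ≃ₐ[F] L, g y / y ∈ Polynomial.nthRootsFinset p (1 : L) := fun g => by
    rw [Polynomial.mem_nthRootsFinset hp.pos, div_pow, ← map_pow, hy, AlgEquiv.commutes, ← hy, div_self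
      (pow_ne_zero _ hy0)]
  have himage : univ.image (fun g : L ≃ₐ[F] L => g y / y) = Polynomial.nthRootsFinset p (1 : L) := by
    refine eq_of_subset_of_card_le (fun x hx => ?_) (le_of_eq ?_)
    · obtain ⟨g, -, rfl⟩ := mem_image.mp hx
      exact hmem g
    · rw [hω.card_nthRootsFinset, card_image_of_injective _ fun g h e => hinj g h
        ((div_left_inj' hy0).mp e), card_univ, ← Nat.card_eq_fintype_card, IsGalois.card_aut_eq_finrank, hdeg]
  have hprod : ∀ z : L, ∏ g : L ≃ₐ[F] L, (z - g y) = z ^ p - algebraMap F L c := fun z => by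
    rw [← hy, hω.pow_sub_pow_eq_prod_sub_mul z y hp.pos, ← himage,
      prod_image fun g _ h _ e => hinj g h ((div_left_inj' hy0).mp e)]
    exact prod_congr rfl fun g _ => by rw [div_mul_cancel₀ _ hy0]
  have hcard : (univ : Finset (L ≃ₐ[F] L)).card = p := by
    rw [card_univ, ← Nat.card_eq_fintype_card, IsGalois.card_aut_eq_finrank, hdeg]
  have hsq : ((-1 : L) ^ p) * (-1) ^ p = 1 := by rw [← pow_add, Even.neg_one_pow ⟨p, rfl⟩]
  constructor
  · apply (algebraMap F L).injective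
    rw [Algebra.norm_eq_prod_automorphisms, map_mul, map_pow, map_neg, map_one, pow_succ]
    have h := hprod 0
    simp only [zero_sub, zero_pow hp.ne_zero, prod_neg, hcard] at h
    linear_combination (-1 : L) ^ p * h - (∏ g : L ≃ₐ[F] L, g y) * hsq
  · apply (algebraMap F L).injective
    rw [Algebra.norm_eq_prod_automorphisms, map_mul, map_pow, map_neg, map_sub, map_one, pow_succ]
    have h := hprod 1
    rw [one_pow, show ∏ g : L ≃ₐ[F] L, (1 - g y) = (-1) ^ p * ∏ g : L ≃ₐ[F] L, g (y - 1) by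
      rw [← hcard, ← prod_neg]; exact prod_congr rfl fun g _ => by rw [map_sub, map_one, neg_sub]] at h
    linear_combination (-1 : L) ^ p * h - (∏ g : L ≃ₐ[F] L, g (y - 1)) * hsq

/-- Automorphisms are determined by a primitive root. -/
theorem aut_ext_of_primitive {x : L} (hx : IsPrimitiveRoot x (p ^ (n + 2))) {g h : L ≃ₐ[F] L} (e : g x = h x) :
    g = h := by
  have : NeZero (p ^ (n + 2)) := ⟨pow_ne_zero _ (Fact.out : p.Prime).ne_zero⟩
  have h' : g.toAlgHom.restrictScalars ℚ = h.toAlgHom.restrictScalars ℚ :=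
    (hx.powerBasis ℚ).algHom_ext (by rw [IsPrimitiveRoot.powerBasis_gen]; exact e)
  exact AlgEquiv.ext fun y => DFunLike.congr_fun h' y

variable {ζ' : 𝓞 L} (hζ' : IsPrimitiveRoot ζ' (p ^ (n + 2)))

include hζ'

theorem smul_zeta_eq_pow (g : L ≃ₐ[F] L) : ∃ b : ℕ, ¬ p ∣ b ∧ g • ζ' = ζ' ^ b := by
  have hp : p.Prime := Fact.out
  have : NeZero (p ^ (n + 2)) := ⟨pow_ne_zero _ hp.ne_zero⟩
  have hg : IsPrimitiveRoot (g • ζ') (p ^ (n + 2)) :=
    hζ'.map_of_injective (f := MulSemiringAction.toRingHom (L ≃ₐ[F] L) (𝓞 L) g) (MulAction.injective g)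
  obtain ⟨b, -, hb⟩ := hζ'.eq_pow_of_pow_eq_one hg.pow_eq_one
  refine ⟨b, fun h => ?_, hb.symm⟩
  rw [← hb, hζ'.pow_iff_coprime (pow_pos hp.pos _), Nat.coprime_pow_right_iff (by omega)] at hg
  exact hp.coprime_iff_not_dvd.mp hg.symm h

theorem actU_mem_levelUnits (g : L ≃ₐ[F] L) {u : (𝓞 L)ˣ} (hu : u ∈ levelUnits p ζ') :
    actU g u ∈ levelUnits p ζ' := by
  obtain ⟨b, hb, hg⟩ := smul_zeta_eq_pow hζ' g
  exact map_mem_levelUnits (n := n + 1) hζ' _ hb hg hu

theorem exists_smul_lam (g : L ≃ₐ[F] L) : ∃ w ∈ levelUnits p ζ', g • (ζ' - 1) = (w : (𝓞 L)ˣ) * (ζ' - 1) := by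
  obtain ⟨b, hb, hg⟩ := smul_zeta_eq_pow hζ' g
  obtain ⟨w, hw, hw'⟩ := exists_levelUnit (n := n + 1) hζ' hb
  exact ⟨w, hw, by rw [smul_sub, smul_one, hg, hw']⟩

/-- The norm of the upper cyclotomic units contains the lower ones. -/
theorem levelUnits_le_map_normU (hdeg : Module.finrank F L = p) (hn : Odd p ∨ 1 ≤ n) {ζ : 𝓞 F}
    (hζ : algebraMap (𝓞 F) (𝓞 L) ζ = ζ' ^ p) : levelUnits p ζ ≤ (levelUnits p ζ').map (normU F) := by
  have hp : p.Prime := Fact.out
  have hζL : IsPrimitiveRoot (ζ' : L) (p ^ (n + 2)) :=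
    hζ'.map_of_injective (f := algebraMap (𝓞 L) L) (IsFractionRing.injective (𝓞 L) L)
  have hω : IsPrimitiveRoot ((ζ' : L) ^ p ^ (n + 1)) p :=
    hζL.pow (pow_pos hp.pos _) (pow_succ p (n + 1))
  have hnorm : ∀ a : ℕ, ¬ p ∣ a → Algebra.norm F ((ζ' : L) ^ a) = (-1) ^ (p + 1) * (ζ : F) ^ a ∧
      Algebra.norm F ((ζ' : L) ^ a - 1) = (-1) ^ (p + 1) * ((ζ : F) ^ a - 1) := fun a ha => by
    refine norm_of_pow_eq hdeg hω ?_ (pow_ne_zero a (hζL.ne_zero (pow_ne_zero _ hp.ne_zero))) ?_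
    · have h := congrArg (fun t : 𝓞 L => (t : L)) hζ
      rw [← pow_mul, mul_comm, pow_mul, map_pow]
      exact congrArg (· ^ a) h.symm
    · intro g h e
      refine aut_ext_of_primitive (hζL.pow_of_coprime a
        ((Nat.coprime_pow_right_iff (by omega) _ _).mpr (hp.coprime_iff_not_dvd.mpr ha).symm)) e
  have h1 : ¬ p ∣ 1 := hp.not_dvd_one
  obtain ⟨z, hz⟩ := hζ'.isUnit (pow_ne_zero _ hp.ne_zero)
  have hNz : ((normU F z : 𝓞 F) : F) = (-1) ^ (p + 1) * (ζ : F) := by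
    rw [normU_coe, hz]
    simpa using (hnorm 1 h1).1
  have hneg : (-1 : (𝓞 F)ˣ) ∈ (levelUnits p ζ').map (normU F) := by
    rcases hp.eq_two_or_odd' with rfl | hodd
    · have hn' : 1 ≤ n := hn.resolve_left (by decide)
      refine ⟨z ^ 2 ^ n, pow_mem (zeta_mem_levelUnits hz) _, Units.ext (RingOfIntegers.ext ?_)⟩
      rw [map_pow, Units.val_pow_eq_pow_val]
      show ((normU F z : 𝓞 F) : F) ^ 2 ^ n = -1
      rw [hNz, mul_pow, ← pow_mul,
        Even.neg_one_pow (Even.mul_left ((Nat.even_pow' (by omega)).mpr even_two) _), one_mul]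
      refine (algebraMap F L).injective ?_
      rw [map_pow, show algebraMap F L (ζ : F) = (ζ' : L) ^ 2 from congrArg (fun t : 𝓞 L => (t : L)) hζ,
        ← pow_mul, ← pow_succ', hω.eq_neg_one_of_two_right]
      simp
    · refine ⟨-1, neg_one_mem_levelUnits, Units.ext (RingOfIntegers.ext ?_)⟩
      show Algebra.norm F (-1 : L) = -1
      rw [show (-1 : L) = algebraMap F L (-1) by simp, Algebra.norm_algebraMap, hdeg, hodd.neg_one_pow]
  refine (Subgroup.closure_le _).mpr ?_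
  rintro u (rfl | h | ⟨a, ha, h⟩)
  · exact hneg
  · have hu : u = (-1) ^ (p + 1) * normU F z := Units.ext (RingOfIntegers.ext (by
      simp only [Units.val_mul, Units.val_pow_eq_pow_val, Units.val_neg, Units.val_one, map_mul, map_pow, map_neg,
        map_one, hNz, h, ← mul_assoc, ← pow_add, Even.neg_one_pow ⟨p + 1, rfl⟩, one_mul]))
    rw [hu]
    exact mul_mem (pow_mem hneg _) ⟨z, zeta_mem_levelUnits hz, rfl⟩
  · obtain ⟨v, hv, hv'⟩ := exists_levelUnit (n := n + 1) hζ' ha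
    refine ⟨v, hv, Units.ext (RingOfIntegers.ext ?_)⟩
    show Algebra.norm F ((v : 𝓞 L) : L) = ((u : 𝓞 F) : F)
    have e1 : ((v : 𝓞 L) : L) * ((ζ' : L) - 1) = (ζ' : L) ^ a - 1 := congrArg (fun t : 𝓞 L => (t : L)) hv'
    have e2 : ((u : 𝓞 F) : F) * ((ζ : F) - 1) = (ζ : F) ^ a - 1 := congrArg (fun t : 𝓞 F => (t : F)) h
    have hne : (-1) ^ (p + 1) * ((ζ : F) - 1) ≠ 0 := fun e => by
      have h' : Algebra.norm F ((ζ' : L) - 1) = 0 := by simpa [e] using (hnorm 1 h1).2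
      exact sub_ne_zero.mpr (hζL.ne_one (Nat.one_lt_pow (by omega) hp.one_lt)) (Algebra.norm_eq_zero_iff.mp h')
    refine mul_right_cancel₀ hne ?_
    rw [mul_left_comm ((u : 𝓞 F) : F), e2, ← (hnorm a ha).2, ← e1, map_mul, ← pow_one (ζ' : L), (hnorm 1 h1).2,
      pow_one]

end FA.CycloTower
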