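import Fermat.Agent.CycloTower.FixedIdeal
import Fermat.Prelude.Def_ClassGroup_GaloisAction

/-!
# One cyclic step of degree `p` with one ramified prime

If every unit of `F` is the norm of a unit of `L` and no class of `F` has order `p`, then neither has `L`
(a fixed class has a fixed ideal, hence comes from `F`); and if the units of `F` are norms from a stable group `S`
times `p`-th powers, the units of `L` lie in `S` times `p`-th powers.
-/

set_option autoImplicit false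
set_option linter.unusedSectionVars false

noncomputable section

open NumberField
open scoped Pointwise nonZeroDivisors

namespace FA.CycloTower

variable {F L : Type} [Field F] [NumberField F] [Field L] [NumberField L] [Algebra F L]

/-- An automorphism on the units. -/
def actU (g : L ≃ₐ[F] L) : (𝓞 L)ˣ →* (𝓞 L)ˣ :=
  Units.map (MulSemiringAction.toRingHom (L ≃ₐ[F] L) (𝓞 L) g).toMonoidHom

@[simp] theorem actU_coe (g : L ≃ₐ[F] L) (u : (𝓞 L)ˣ) : (actU g u : 𝓞 L) = g • (u : 𝓞 L) := rfl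

/-- The norm on the units. -/
def normU (F : Type) {L : Type} [Field F] [NumberField F] [Field L] [NumberField L] [Algebra F L] :
    (𝓞 L)ˣ →* (𝓞 F)ˣ :=
  Units.map (RingOfIntegers.norm F)

theorem normU_coe (u : (𝓞 L)ˣ) : ((normU F u : 𝓞 F) : F) = Algebra.norm F ((u : 𝓞 L) : L) := rfl

theorem coe_smul_int (g : L ≃ₐ[F] L) (x : 𝓞 L) : ((g • x : 𝓞 L) : L) = g (x : L) := rfl

theorem smul_span (g : L ≃ₐ[F] L) (x : 𝓞 L) : g • Ideal.span {x} = Ideal.span {g • x} := by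
  rw [Ideal.pointwise_smul_def, Ideal.map_span, Set.image_singleton]
  rfl

theorem smul_fixed_of_generator {σ : L ≃ₐ[F] L} (hσ : ∀ g, g ∈ Subgroup.zpowers σ) {B : Ideal (𝓞 L)}
    (h : σ • B = B) (g : L ≃ₐ[F] L) : g • B = B :=
  (Subgroup.zpowers_le.mpr (show σ ∈ MulAction.stabilizer (L ≃ₐ[F] L) B from h)) (hσ g)

/-- Hilbert 90 with an integral element. -/
theorem exists_integral_hilbert90 [IsGalois F L] {σ : L ≃ₐ[F] L} (hσ : ∀ g, g ∈ Subgroup.zpowers σ) {r : L}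
    (hr : Algebra.norm F r = 1) : ∃ β : 𝓞 L, β ≠ 0 ∧ r * σ (β : L) = (β : L) := by
  have : IsCyclic (L ≃ₐ[F] L) := ⟨σ, hσ⟩
  obtain ⟨z, hz⟩ := groupCohomology.exists_div_of_norm_eq_one (g := σ) hσ hr
  obtain ⟨a, b, hb, hab⟩ := IsFractionRing.div_surjective (𝓞 L) (z : L)
  have hb0 : (b : L) ≠ 0 := IsFractionRing.to_map_ne_zero_of_mem_nonZeroDivisors hb
  set m : 𝓞 F := RingOfIntegers.norm F b
  have hdvd : b ∣ algebraMap (𝓞 F) (𝓞 L) m := RingOfIntegers.dvd_norm F b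
  obtain ⟨c, hc⟩ := hdvd
  have hm : (algebraMap (𝓞 F) (𝓞 L) m : L) = algebraMap F L (m : F) := rfl
  have hc' : ((algebraMap (𝓞 F) (𝓞 L) m : 𝓞 L) : L) = (b : L) * (c : L) := by rw [hc]; rfl
  have hval : ((a * c : 𝓞 L) : L) = (z : L) * algebraMap F L (m : F) := by
    rw [← hm, hc', ← hab]
    show (a : L) * (c : L) = (a : L) / (b : L) * ((b : L) * (c : L))
    field_simp
  have hm0 : algebraMap F L (m : F) ≠ 0 := by
    refine (map_ne_zero _).mpr ?_
    rw [RingOfIntegers.coe_norm]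
    exact Algebra.norm_ne_zero_iff.mpr hb0
  refine ⟨a * c, fun h => mul_ne_zero z.ne_zero hm0 (by rw [← hval, h]; rfl), ?_⟩
  rw [hval, map_mul, AlgEquiv.commutes, ← hz]
  field_simp [(map_ne_zero σ).mpr z.ne_zero]

theorem mk0_eq_one_of_eq_span {R : Type*} [CommRing R] [IsDedekindDomain R] (I : (Ideal R)⁰) (g : R)
    (h : (I : Ideal R) = Ideal.span {g}) : ClassGroup.mk0 I = 1 :=
  (ClassGroup.mk0_eq_one_iff I.2).mpr ⟨⟨g, h⟩⟩

theorem exists_one_sub_pow {p : ℕ} [Fact p.Prime] {R : Type*} [Ring R] {s : R} (hs : s ^ p = 1) :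
    ∃ r : R, (1 - s) ^ p = (p : R) * r := by
  rcases (Fact.out : p.Prime).eq_two_or_odd' with rfl | hodd
  · refine ⟨1 - s, ?_⟩
    rw [sq] at hs ⊢
    rw [sub_mul, one_mul, mul_sub, mul_one, hs, Nat.cast_two, two_mul]
    abel
  obtain ⟨r, hr⟩ := (Commute.one_left (-s)).exists_add_pow_prime_eq (Fact.out : p.Prime)
  refine ⟨1 * -s * r, ?_⟩
  rw [sub_eq_add_neg, hr, one_pow, hodd.neg_pow, hs, add_neg_cancel, zero_add]
  simp only [mul_assoc]

theorem intNorm_eq_norm (x : 𝓞 L) : Algebra.intNorm (𝓞 F) (𝓞 L) x = RingOfIntegers.norm F x :=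
  IsFractionRing.injective (𝓞 F) F (Algebra.algebraMap_intNorm (L := L) x)

/-- The class group action. -/
def actCl : (L ≃ₐ[F] L) →* MulAut (ClassGroup (𝓞 L)) :=
  MonoidHom.mk' (fun g => ClassGroup.mulEquiv (MulSemiringAction.toRingEquiv (L ≃ₐ[F] L) (𝓞 L) g)) fun g h => by
    refine MulEquiv.ext fun c => ?_
    rw [MulAut.mul_apply, ← ClassGroup.mulEquiv_trans_apply]
    congr 2

theorem actCl_mk0 (g : L ≃ₐ[F] L) (I J : (Ideal (𝓞 L))⁰) (h : J.1 = g • I.1) :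
    actCl g (ClassGroup.mk0 I) = ClassGroup.mk0 J := by
  show ClassGroup.mulEquiv _ (ClassGroup.mk0 I) = _
  rw [ClassGroup.mulEquiv_mk0]
  exact congrArg ClassGroup.mk0 (Subtype.ext h.symm)

variable [IsGalois F L] {p : ℕ} [Fact p.Prime]

/-- A class of order `p` gives a fixed one. -/
theorem exists_fixed_class (hdeg : Module.finrank F L = p) (h : p ∣ classNumber L) :
    ∃ c : ClassGroup (𝓞 L), c ≠ 1 ∧ c ^ p = 1 ∧ ∀ g : L ≃ₐ[F] L, actCl g c = c := by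
  classical
  have hG : IsPGroup p (L ≃ₐ[F] L) :=
    IsPGroup.of_card (n := 1) (by rw [IsGalois.card_aut_eq_finrank, hdeg, pow_one])
  let S := {c : ClassGroup (𝓞 L) // c ∈ (powMonoidHom p : ClassGroup (𝓞 L) →* ClassGroup (𝓞 L)).ker}
  let _ : MulAction (L ≃ₐ[F] L) S :=
    { smul := fun g c => ⟨actCl g c.1, by
        have hc : c.1 ^ p = 1 := c.2
        show (actCl g c.1) ^ p = 1
        rw [← map_pow, hc, map_one]⟩
      one_smul := fun c => Subtype.ext (by show actCl 1 c.1 = c.1; rw [map_one]; rfl)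
      mul_smul := fun g h c => Subtype.ext (by
        show actCl (g * h) c.1 = actCl g (actCl h c.1); rw [map_mul]; rfl) }
  have hS : p ∣ Nat.card S := by
    obtain ⟨x, hx⟩ := exists_prime_orderOf_dvd_card p (G := ClassGroup (𝓞 L)) h
    have hxm : x ∈ (powMonoidHom p : ClassGroup (𝓞 L) →* ClassGroup (𝓞 L)).ker := by
      show x ^ p = 1
      rw [← hx, pow_orderOf_eq_one]
    have h2 := Subgroup.card_dvd_of_le (Subgroup.zpowers_le.mpr hxm)
    rwa [Nat.card_zpowers, hx] at h2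
  obtain ⟨⟨c, hc⟩, hfix, hne⟩ := hG.exists_fixed_point_of_prime_dvd_card_of_fixed_point S hS
    (a := ⟨1, one_mem _⟩) (fun g => Subtype.ext (map_one (actCl g)))
  exact ⟨c, fun e => hne (Subtype.ext e.symm), hc, fun g => congrArg Subtype.val (hfix g)⟩

variable {π : 𝓞 L}

/-- **The class number**. -/
theorem not_dvd_classNumber_step {σ : L ≃ₐ[F] L} (hσ : ∀ g, g ∈ Subgroup.zpowers σ)
    (hdeg : Module.finrank F L = p) (hπ : (Ideal.span {π}).IsMaximal)
    (hπfix : ∀ g : L ≃ₐ[F] L, g • Ideal.span {π} = Ideal.span {π})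
    (hunr : ∀ P : Ideal (𝓞 L), P.IsPrime → P ≠ ⊥ → π ∉ P → P.ramificationIdx (𝓞 F) = 1) (hF : ¬ p ∣ classNumber F)
    (hnorm : ∀ u : (𝓞 F)ˣ, ∃ v : (𝓞 L)ˣ, normU F v = u) : ¬ p ∣ classNumber L := by
  intro hdvd
  obtain ⟨c, hc1, hcp, hfix⟩ := exists_fixed_class (F := F) hdeg hdvd
  obtain ⟨⟨A, hA⟩, rfl⟩ := ClassGroup.mk0_surjective c
  have hA0 : A ≠ ⊥ := mem_nonZeroDivisors_iff_ne_zero.mp hA
  have hA' : σ • A ∈ (Ideal (𝓞 L))⁰ := mem_nonZeroDivisors_iff_ne_zero.mpr fun e => hA0 (by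
    have := congrArg (σ⁻¹ • ·) e
    simpa [Ideal.zero_eq_bot, inv_smul_smul] using this)
  have hcl := (actCl_mk0 σ ⟨A, hA⟩ ⟨σ • A, hA'⟩ rfl).symm.trans (hfix σ)
  obtain ⟨x, y, hx, hy, hxy⟩ := ClassGroup.mk0_eq_mk0_iff.mp hcl
  have hNn := congrArg (Ideal.relNorm (𝓞 F)) hxy
  rw [map_mul, map_mul, Ideal.relNorm_smul, Ideal.relNorm_singleton, Ideal.relNorm_singleton] at hNn
  obtain ⟨u, hu⟩ := Ideal.span_singleton_eq_span_singleton.mp
    (mul_right_cancel₀ (fun e => hA0 (Ideal.relNorm_eq_bot_iff.mp e)) hNn)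
  obtain ⟨v, hv⟩ := hnorm u
  have hx' : ((x * v : 𝓞 L) : L) ≠ 0 := RingOfIntegers.coe_ne_zero_iff.mpr (mul_ne_zero hx v.ne_zero)
  have hr : Algebra.norm F ((y : L) / ((x * v : 𝓞 L) : L)) = 1 := by
    rw [intNorm_eq_norm, intNorm_eq_norm, ← hv] at hu
    have h2 := congrArg (fun t : 𝓞 F => (t : F)) hu
    simp only [map_mul, RingOfIntegers.coe_norm, normU_coe] at h2
    rw [div_eq_mul_inv, map_mul, Algebra.norm_inv]
    show _ * (Algebra.norm F ((x : L) * ((v : 𝓞 L) : L)))⁻¹ = 1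
    rw [map_mul, h2, mul_inv_cancel₀]
    exact Algebra.norm_ne_zero_iff.mpr (RingOfIntegers.coe_ne_zero_iff.mpr hy)
  obtain ⟨β, hβ, hβr⟩ := exists_integral_hilbert90 hσ hr
  have hkey : y * (σ • β) = x * v * β := by
    refine RingOfIntegers.coe_injective ?_
    rw [div_mul_eq_mul_div, div_eq_iff hx'] at hβr
    simp only [map_mul, coe_smul_int] at hβr ⊢
    linear_combination hβr
  set B := A * Ideal.span {β}
  have hB : B ≠ ⊥ := mul_ne_zero hA0 (fun e => hβ (Ideal.span_singleton_eq_bot.mp e))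
  have hBσ : σ • B = B := by
    refine mul_left_cancel₀ (a := Ideal.span {x}) (fun e => hx (Ideal.span_singleton_eq_bot.mp e)) ?_
    rw [smul_mul', smul_span]
    calc Ideal.span {x} * (σ • A * Ideal.span {σ • β}) = Ideal.span {y} * A * Ideal.span {σ • β} := by
          rw [← mul_assoc, hxy]
      _ = A * Ideal.span {y * (σ • β)} := by rw [← Ideal.span_singleton_mul_span_singleton]; ring
      _ = A * (Ideal.span {x} * Ideal.span {β}) := by
          rw [hkey, mul_right_comm x, Ideal.span_singleton_mul_right_unit v.isUnit,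
            Ideal.span_singleton_mul_span_singleton]
      _ = Ideal.span {x} * B := by ring
  obtain ⟨k, J, hJ⟩ := exists_decomp hπ hπfix hunr B hB (smul_fixed_of_generator hσ hBσ)
  have hJ0 : J ≠ ⊥ := fun e => hB (by rw [hJ, e, Ideal.map_bot, Ideal.mul_bot])
  have hJh : ClassGroup.mk0 ⟨J, mem_nonZeroDivisors_iff_ne_zero.mpr hJ0⟩ ^ classNumber F = 1 := pow_card_eq_one
  rw [← map_pow] at hJh
  obtain ⟨⟨f, hf⟩⟩ := (ClassGroup.mk0_eq_one_iff _).mp hJh
  have hh : ClassGroup.mk0 ⟨A, hA⟩ ^ classNumber F = 1 := by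
    have hβ' : Ideal.span {β} ∈ (Ideal (𝓞 L))⁰ :=
      mem_nonZeroDivisors_iff_ne_zero.mpr fun e => hβ (Ideal.span_singleton_eq_bot.mp e)
    have h1 : ClassGroup.mk0 ⟨Ideal.span {β}, hβ'⟩ = 1 := (ClassGroup.mk0_eq_one_iff hβ').mpr ⟨⟨β, rfl⟩⟩
    suffices hB1 : ClassGroup.mk0 ((⟨A, hA⟩ * ⟨Ideal.span {β}, hβ'⟩) ^ classNumber F) = 1 by
      rwa [map_pow, map_mul, h1, mul_one] at hB1
    refine mk0_eq_one_of_eq_span _ ((π ^ k) ^ classNumber F * algebraMap (𝓞 F) (𝓞 L) f) ?_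
    rw [SubmonoidClass.coe_pow]
    show B ^ classNumber F = Ideal.span _
    have hf' : J ^ classNumber F = Ideal.span {f} := hf
    rw [hJ, mul_pow, ← Ideal.map_pow, hf', Ideal.map_span, Set.image_singleton, Ideal.span_singleton_pow,
      Ideal.span_singleton_pow, Ideal.span_singleton_mul_span_singleton]
  exact hc1 ((pow_eq_one_iff_of_coprime ((Fact.out : p.Prime).coprime_iff_not_dvd.mpr hF)).mp ⟨hcp, hh⟩)

/-- The units of norm one. -/
theorem exists_of_normU_eq_one {σ : L ≃ₐ[F] L} (hσ : ∀ g, g ∈ Subgroup.zpowers σ)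
    (hdeg : Module.finrank F L = p) (hπ0 : π ≠ 0) (hπ : (Ideal.span {π}).IsMaximal)
    (hπfix : ∀ g : L ≃ₐ[F] L, g • Ideal.span {π} = Ideal.span {π})
    (hunr : ∀ P : Ideal (𝓞 L), P.IsPrime → P ≠ ⊥ → π ∉ P → P.ramificationIdx (𝓞 F) = 1) (hF : ¬ p ∣ classNumber F)
    {w : (𝓞 L)ˣ} (hw : σ • π = w * π) {u : (𝓞 L)ˣ} (hu : normU F u = 1) :
    ∃ (k : ℕ) (η : (𝓞 L)ˣ), u = (w⁻¹) ^ k * (η * (actU σ η)⁻¹) := by
  have hp : p.Prime := Fact.out
  have hr : Algebra.norm F ((u : 𝓞 L) : L) = 1 := by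
    have h := congrArg (fun t : (𝓞 F)ˣ => ((t : 𝓞 F) : F)) hu
    simpa [normU_coe] using h
  obtain ⟨β, hβ, hβr⟩ := exists_integral_hilbert90 hσ hr
  have hkey : (u : 𝓞 L) * (σ • β) = β := RingOfIntegers.coe_injective (by
    simp only [map_mul, coe_smul_int]; exact hβr)
  have hB : Ideal.span {β} ≠ ⊥ := fun e => hβ (Ideal.span_singleton_eq_bot.mp e)
  have hBσ : σ • Ideal.span {β} = Ideal.span {β} := by
    rw [smul_span]
    conv_rhs => rw [← hkey, Ideal.span_singleton_mul_left_unit u.isUnit]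
  obtain ⟨k, J, hJ⟩ := exists_decomp hπ hπfix hunr _ hB (smul_fixed_of_generator hσ hBσ)
  have hJ0 : J ≠ ⊥ := fun e => hB (by rw [hJ, e, Ideal.map_bot, Ideal.mul_bot])
  have hN := congrArg (Ideal.relNorm (𝓞 F)) hJ
  rw [map_mul, map_pow, Ideal.relNorm_algebraMap, Ideal.relNorm_singleton, Ideal.relNorm_singleton,
    Ideal.span_singleton_pow, show Module.finrank (𝓞 F) (𝓞 L) = p by
      rw [← hdeg, IsFractionRing.finrank_eq (𝓞 F) F (𝓞 L) L]] at hN
  set J₀ : (Ideal (𝓞 F))⁰ := ⟨J, mem_nonZeroDivisors_iff_ne_zero.mpr hJ0⟩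
  have hn0 : ∀ {t : 𝓞 L}, t ≠ 0 → Algebra.intNorm (𝓞 F) (𝓞 L) t ≠ 0 := fun ht => Algebra.intNorm_ne_zero.mpr ht
  have hp1 : ClassGroup.mk0 J₀ ^ p = 1 := by
    have hπ' : Ideal.span {Algebra.intNorm (𝓞 F) (𝓞 L) π ^ k} ∈ (Ideal (𝓞 F))⁰ :=
      mem_nonZeroDivisors_iff_ne_zero.mpr fun e => pow_ne_zero k (hn0 hπ0) (Ideal.span_singleton_eq_bot.mp e)
    have h1 : ClassGroup.mk0 ⟨_, hπ'⟩ = 1 := (ClassGroup.mk0_eq_one_iff hπ').mpr ⟨⟨_, rfl⟩⟩
    have h2 : ClassGroup.mk0 (⟨_, hπ'⟩ * J₀ ^ p) = 1 :=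
      mk0_eq_one_of_eq_span _ (Algebra.intNorm (𝓞 F) (𝓞 L) β) (by
        rw [Submonoid.coe_mul, SubmonoidClass.coe_pow]; exact hN.symm)
    rwa [map_mul, map_pow, h1, one_mul] at h2
  have hJ1 : ClassGroup.mk0 J₀ = 1 :=
    (pow_eq_one_iff_of_coprime (hp.coprime_iff_not_dvd.mpr hF)).mp ⟨hp1, pow_card_eq_one⟩
  obtain ⟨⟨f, hf⟩⟩ := (ClassGroup.mk0_eq_one_iff _).mp hJ1
  have hf' : J = Ideal.span {f} := hf
  rw [hf', Ideal.map_span, Set.image_singleton, Ideal.span_singleton_pow, Ideal.span_singleton_mul_span_singleton,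
    Ideal.span_singleton_eq_span_singleton] at hJ
  obtain ⟨η, hη⟩ := hJ.symm
  have hfσ : σ • algebraMap (𝓞 F) (𝓞 L) f = algebraMap (𝓞 F) (𝓞 L) f :=
    RingOfIntegers.ext (σ.commutes (f : F))
  refine ⟨k, η, Units.ext ?_⟩
  rw [← hη, smul_mul', smul_mul', smul_pow', hw, hfσ] at hkey
  have hne : π ^ k * algebraMap (𝓞 F) (𝓞 L) f ≠ 0 := fun e => hβ (by rw [← hη, e, zero_mul])
  have h2 : (u : 𝓞 L) * ((w : 𝓞 L) ^ k * (σ • (η : 𝓞 L))) = η := mul_left_cancel₀ hne (by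
    linear_combination hkey)
  have h3 : u * (w ^ k * actU σ η) = η := Units.ext (by simpa using h2)
  conv_lhs => rw [eq_mul_inv_of_mul_eq h3, mul_inv, ← inv_pow]
  rw [mul_left_comm]

/-- **The units**. -/
theorem units_step {σ : L ≃ₐ[F] L} (hσ : ∀ g, g ∈ Subgroup.zpowers σ)
    (hdeg : Module.finrank F L = p) (hπ0 : π ≠ 0) (hπ : (Ideal.span {π}).IsMaximal)
    (hπfix : ∀ g : L ≃ₐ[F] L, g • Ideal.span {π} = Ideal.span {π})
    (hunr : ∀ P : Ideal (𝓞 L), P.IsPrime → P ≠ ⊥ → π ∉ P → P.ramificationIdx (𝓞 F) = 1) (hF : ¬ p ∣ classNumber F)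
    {S : Subgroup (𝓞 L)ˣ} (hS : ∀ g : L ≃ₐ[F] L, ∀ s ∈ S, actU g s ∈ S) {w : (𝓞 L)ˣ} (hwS : w ∈ S)
    (hw : σ • π = w * π) (hU : ∀ u : (𝓞 F)ˣ, ∃ s ∈ S, ∃ v : (𝓞 F)ˣ, u = normU F s * v ^ p) (u : (𝓞 L)ˣ) :
    ∃ s ∈ S, ∃ v : (𝓞 L)ˣ, u = s * v ^ p := by
  set T := S ⊔ (powMonoidHom p : (𝓞 L)ˣ →* (𝓞 L)ˣ).range
  suffices u ∈ T by
    obtain ⟨s, hs, _, ⟨v, rfl⟩, h⟩ := Subgroup.mem_sup.mp this
    exact ⟨s, hs, v, h.symm⟩
  set ι : (𝓞 F)ˣ →* (𝓞 L)ˣ := Units.map (algebraMap (𝓞 F) (𝓞 L)).toMonoidHom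
  have hι : ∀ v : (𝓞 F)ˣ, ι v ∈ T := fun v => by
    obtain ⟨s, hs, v', rfl⟩ := hU v
    rw [map_mul, map_pow]
    refine mul_mem (Subgroup.mem_sup_left ?_) (Subgroup.mem_sup_right ⟨ι v', rfl⟩)
    have : ι (normU F s) = ∏ g : L ≃ₐ[F] L, actU g s := Units.ext (RingOfIntegers.coe_injective (by
      rw [Units.coe_prod, map_prod]
      exact Algebra.norm_eq_prod_automorphisms F ((s : 𝓞 L) : L)))
    rw [this]
    exact prod_mem fun g _ => hS g s hs
  set φ : (𝓞 L)ˣ →* (𝓞 L)ˣ := MonoidHom.id _ / actU σ with hφ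
  have hφT : ∀ t ∈ T, φ t ∈ T := fun t ht => by
    obtain ⟨s, hs, _, ⟨v, rfl⟩, rfl⟩ := Subgroup.mem_sup.mp ht
    rw [map_mul, show φ (powMonoidHom p v) = φ v ^ p from map_pow φ v p]
    exact mul_mem (Subgroup.mem_sup_left (div_mem hs (hS σ s hs))) (Subgroup.mem_sup_right ⟨φ v, rfl⟩)
  have hstep : ∀ u, ∃ t ∈ T, ∃ η, u = t * φ η := fun u => by
    obtain ⟨s, hs, v, hv⟩ := hU (normU F u)
    have hone : normU F (u * (s * ι v)⁻¹) = 1 := by
      have hiv : normU F (ι v) = v ^ p := Units.ext (RingOfIntegers.ext (by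
        rw [Units.val_pow_eq_pow_val, ← hdeg]
        show Algebra.norm F (algebraMap F L ((v : 𝓞 F) : F)) = ((v : 𝓞 F) : F) ^ Module.finrank F L
        rw [Algebra.norm_algebraMap]))
      rw [map_mul, map_inv, map_mul, hiv, ← hv, mul_inv_cancel]
    obtain ⟨k, η, hη⟩ := exists_of_normU_eq_one hσ hdeg hπ0 hπ hπfix hunr hF hw hone
    refine ⟨s * ι v * w⁻¹ ^ k, mul_mem (mul_mem (Subgroup.mem_sup_left hs) (hι v))
      (Subgroup.mem_sup_left (pow_mem (inv_mem hwS) k)), η, ?_⟩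
    rw [mul_inv_eq_iff_eq_mul.mp hη]
    simp only [φ, MonoidHom.div_apply, MonoidHom.id_apply, div_eq_mul_inv]
    ac_rfl
  have hiter : ∀ (n : ℕ) (u : (𝓞 L)ˣ), ∃ t ∈ T, ∃ η, u = t * (φ^[n]) η := fun n => by
    induction n with
    | zero => exact fun u => ⟨1, one_mem _, u, by simp⟩
    | succ n ih =>
      intro u
      obtain ⟨t, ht, η, rfl⟩ := ih u
      obtain ⟨t', ht', η', rfl⟩ := hstep η
      refine ⟨t * (φ^[n]) t', mul_mem ht (Set.MapsTo.iterate (f := φ) (s := (T : Set (𝓞 L)ˣ)) hφT n ht'), η', ?_⟩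
      rw [iterate_map_mul, Function.iterate_succ_apply, mul_assoc]
  obtain ⟨t, ht, η, rfl⟩ := hiter p u
  refine mul_mem ht (Subgroup.mem_sup_right ?_)
  let s : AddMonoid.End (Additive (𝓞 L)ˣ) := (actU σ).toAdditive
  have hs : s ^ p = 1 := by
    have hσp : σ ^ p = 1 := by
      have := pow_card_eq_one' (x := σ)
      rwa [IsGalois.card_aut_eq_finrank, hdeg] at this
    have : ∀ (n : ℕ) (a : Additive (𝓞 L)ˣ), (s ^ n) a = Additive.ofMul (actU (σ ^ n) a.toMul) := fun n => by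
      induction n with
      | zero =>
        intro a
        show a = _
        exact Additive.toMul.injective (Units.ext (one_smul _ _).symm)
      | succ n ih =>
        intro a
        rw [pow_succ', AddMonoid.End.coe_mul, Function.comp_apply, ih, pow_succ']
        exact Additive.toMul.injective (Units.ext (mul_smul _ _ _).symm)
    refine DFunLike.ext _ _ fun a => ?_
    rw [this p a, hσp]
    exact Additive.toMul.injective (Units.ext (one_smul _ _))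
  obtain ⟨r, hr⟩ := exists_one_sub_pow (R := AddMonoid.End (Additive (𝓞 L)ˣ)) (s := s) hs
  have hφpow : ∀ (n : ℕ) (x : (𝓞 L)ˣ), ((1 - s) ^ n) (Additive.ofMul x) = Additive.ofMul ((φ^[n]) x) := fun n => by
    induction n with
    | zero => exact fun x => rfl
    | succ n ih =>
      intro x
      rw [pow_succ', AddMonoid.End.coe_mul, Function.comp_apply, ih, Function.iterate_succ_apply']
      rfl
  have h := DFunLike.congr_fun hr (Additive.ofMul η)
  rw [hφpow, AddMonoid.End.coe_mul, Function.comp_apply, AddMonoid.End.natCast_apply] at h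
  exact ⟨(r (Additive.ofMul η)).toMul, by
    rw [← toMul_ofMul ((φ^[p]) η), h, toMul_nsmul]; rfl⟩

end FA.CycloTower
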