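import Fermat.Agent.CycloTower.Step
import Mathlib.NumberTheory.NumberField.CMField

/-!
# The class number of the real subfield of `ℚ(ζ_(2^m))`

If the class number of `ℚ(ζ_(2^m))` is odd, so is that of its maximal real subfield.
-/

set_option autoImplicit false

noncomputable section

open NumberField Units IsCMField
open scoped nonZeroDivisors

namespace FA.CycloTower

variable {L : Type*} [Field L] [NumberField L] [IsCMField L]

local notation3 "L⁺" => maximalRealSubfield L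

/-- An ideal whose square and extension are principal, with a generator of the extension fixed by conjugation. -/
theorem map_eq_span_of_fixed {J : Ideal (𝓞 L⁺)} {γ : 𝓞 L} {I : Ideal (𝓞 L)}
    (hγ : ringOfIntegersComplexConj L γ = γ) (h : J.map (algebraMap (𝓞 L⁺) (𝓞 L)) * I = Ideal.span {γ}) :
    ∃ r : 𝓞 L⁺, J ^ 2 * Ideal.relNorm (𝓞 L⁺) I = Ideal.span {r} ^ 2 := by
  obtain ⟨r, rfl⟩ := (ringOfIntegersComplexConj_eq_self_iff L γ).mp hγ
  have hd : Module.finrank (𝓞 L⁺) (𝓞 L) = 2 := by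
    rw [← IsFractionRing.finrank_eq (𝓞 L⁺) L⁺ (𝓞 L) L]
    exact Algebra.IsQuadraticExtension.finrank_eq_two L⁺ L
  refine ⟨r, ?_⟩
  have h' := congrArg (Ideal.relNorm (𝓞 L⁺)) h
  rwa [map_mul, Ideal.relNorm_algebraMap, hd, ← Set.image_singleton, ← Ideal.map_span, Ideal.relNorm_algebraMap,
    hd] at h'

/-- **The real class number is odd**. -/
theorem not_two_dvd_classNumber_real {n : ℕ} [IsCyclotomicExtension {2 ^ (n + 2)} ℚ L]
    (h : ¬ 2 ∣ classNumber L) : ¬ 2 ∣ classNumber L⁺ := by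
  intro h2
  have : Fact (Nat.Prime 2) := ⟨Nat.prime_two⟩
  obtain ⟨c, hc⟩ := exists_prime_orderOf_dvd_card 2 (G := ClassGroup (𝓞 L⁺)) h2
  obtain ⟨⟨J, hJ⟩, rfl⟩ := ClassGroup.mk0_surjective c
  have hJ0 : J ≠ ⊥ := mem_nonZeroDivisors_iff_ne_zero.mp hJ
  have hJ2 : ClassGroup.mk0 ((⟨J, hJ⟩ : (Ideal (𝓞 L⁺))⁰) ^ 2) = 1 := by rw [map_pow, ← hc, pow_orderOf_eq_one]
  obtain ⟨⟨r, hr⟩⟩ := (ClassGroup.mk0_eq_one_iff _).mp hJ2
  have hr' : J ^ 2 = Ideal.span {r} := hr
  have hnp : ∀ r : 𝓞 L⁺, J ≠ Ideal.span {r} := fun r e => by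
    rw [mk0_eq_one_of_eq_span ⟨J, hJ⟩ r e, orderOf_one] at hc
    omega
  set ι := algebraMap (𝓞 L⁺) (𝓞 L)
  have hI0 : J.map ι ≠ ⊥ := fun e => hJ0
    ((Ideal.map_eq_bot_iff_of_injective (FaithfulSMul.algebraMap_injective (𝓞 L⁺) (𝓞 L))).mp e)
  set I : (Ideal (𝓞 L))⁰ := ⟨J.map ι, mem_nonZeroDivisors_iff_ne_zero.mpr hI0⟩
  have hI2 : ClassGroup.mk0 I ^ 2 = 1 := by
    rw [← map_pow]
    refine mk0_eq_one_of_eq_span _ (ι r) ?_
    rw [SubmonoidClass.coe_pow]
    show J.map ι ^ 2 = _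
    rw [← Ideal.map_pow, hr', Ideal.map_span, Set.image_singleton]
  obtain ⟨⟨α, hα⟩⟩ := (ClassGroup.mk0_eq_one_iff _).mp
    ((pow_eq_one_iff_of_coprime (Nat.prime_two.coprime_iff_not_dvd.mpr h)).mp ⟨hI2, pow_card_eq_one⟩)
  have hα' : J.map ι = Ideal.span {α} := hα
  set cc := ringOfIntegersComplexConj L
  have hfix : (Ideal.span {cc α} : Ideal (𝓞 L)) = Ideal.span {α} := by
    have h' : (J.map ι).map cc.toAlgHom.toRingHom = J.map ι := by
      rw [Ideal.map_map]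
      congr 1
      exact RingHom.ext cc.commutes
    rw [hα', Ideal.map_span, Set.image_singleton] at h'
    exact h'
  obtain ⟨u, hu⟩ := Ideal.span_singleton_eq_span_singleton.mp hfix.symm
  have hα0 : α ≠ 0 := fun e => hI0 (by rw [hα', e, Ideal.span_singleton_eq_bot])
  have hut : u ∈ torsion L := (mem_torsion L).mpr fun w => by
    have hw := congrArg (fun t : 𝓞 L => w (t : L)) hu
    simp only [cc, coe_ringOfIntegersComplexConj, infinitePlace_complexConj, map_mul] at hw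
    exact mul_left_cancel₀ ((map_ne_zero w).mpr (RingOfIntegers.coe_ne_zero_iff.mpr hα0))
      (hw.trans (mul_one _).symm)
  have : NeZero (2 ^ (n + 2)) := ⟨pow_ne_zero _ two_ne_zero⟩
  have hζ := (IsCyclotomicExtension.zeta_spec (2 ^ (n + 2)) ℚ L)
  set ζ := hζ.toInteger
  have hζ' : IsPrimitiveRoot ζ (2 ^ (n + 2)) := hζ.toInteger_isPrimitiveRoot
  rw [← rootsOfUnity_eq_torsion L, mem_rootsOfUnity, IsCyclotomicExtension.Rat.torsionOrder_eq (n := 2 ^ (n + 2)),
    if_pos ((Nat.even_pow' (by omega)).mpr even_two)] at hut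
  obtain ⟨j, -, hj⟩ := hζ'.eq_pow_of_pow_eq_one (ξ := (u : 𝓞 L)) (by
    rw [← Units.val_pow_eq_pow_val, hut, Units.val_one])
  have hccα : cc α = α * ζ ^ j := by rw [← hu, hj]
  obtain ⟨z, hz⟩ := hζ'.isUnit (NeZero.ne _)
  have hzt : z ∈ torsion L := (CommGroup.mem_torsion _).mpr (isOfFinOrder_iff_pow_eq_one.mpr
    ⟨2 ^ (n + 2), by positivity, Units.ext (by rw [Units.val_pow_eq_pow_val, hz, hζ'.pow_eq_one, Units.val_one])⟩)
  have hccζ : cc ζ * ζ = 1 := by
    refine RingOfIntegers.ext ?_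
    show ((cc ζ : 𝓞 L) : L) * (ζ : L) = 1
    rw [coe_ringOfIntegersComplexConj, ← hz]
    show complexConj L ((z : 𝓞 L) : L) * ((z : 𝓞 L) : L) = 1
    rw [complexConj_torsion L ⟨z, hzt⟩, inv_mul_cancel₀ (Units.coe_ne_zero z)]
  have hspan : ∀ (x : 𝓞 L) (t : ℕ), Ideal.span {x * ζ ^ t} = Ideal.span {x} := fun x t =>
    Ideal.span_singleton_mul_right_unit ((hζ'.isUnit (NeZero.ne _)).pow t) x
  rcases Nat.even_or_odd' j with ⟨k, rfl | rfl⟩
  · -- the generator can be made real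
    have hγ : cc (α * ζ ^ k) = α * ζ ^ k := by
      rw [map_mul, map_pow, hccα, mul_assoc, two_mul, pow_add, mul_assoc, ← mul_pow, mul_comm ζ, hccζ, one_pow,
        mul_one]
    obtain ⟨r', hr''⟩ := map_eq_span_of_fixed (J := J) (I := ⊤) hγ (by rw [hspan, ← hα', Ideal.mul_top])
    rw [Ideal.relNorm_top, Ideal.mul_top] at hr''
    exact hnp r' (pow_left_injective two_ne_zero hr'')
  · -- or the prime above `2` would be a square
    have hhalf : ζ ^ (2 * 2 ^ n) = -1 := by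
      rw [← pow_succ']
      exact (hζ'.pow (by positivity) (pow_succ 2 (n + 1))).eq_neg_one_of_two_right
    have hγ : cc (α * (ζ - 1) * ζ ^ (k + 2 ^ n)) = α * (ζ - 1) * ζ ^ (k + 2 ^ n) := by
      refine mul_right_cancel₀ (pow_ne_zero (k + 2 ^ n + 1) (hζ'.ne_zero (NeZero.ne _))) ?_
      rw [map_mul, map_mul, map_pow, map_sub, map_one, hccα]
      calc α * ζ ^ (2 * k + 1) * (cc ζ - 1) * cc ζ ^ (k + 2 ^ n) * ζ ^ (k + 2 ^ n + 1)
          = α * ζ ^ (2 * k + 1) * (cc ζ * ζ - ζ) * (cc ζ * ζ) ^ (k + 2 ^ n) := by ring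
        _ = α * ζ ^ (2 * k + 1) * (1 - ζ) := by rw [hccζ, one_pow, mul_one]
        _ = α * (ζ - 1) * (ζ ^ (2 * k + 1) * ζ ^ (2 * 2 ^ n)) := by rw [hhalf]; ring
        _ = α * (ζ - 1) * ζ ^ (k + 2 ^ n) * ζ ^ (k + 2 ^ n + 1) := by ring
    obtain ⟨r', hr''⟩ := map_eq_span_of_fixed (J := J) (I := Ideal.span {ζ - 1}) hγ (by
      rw [hspan, hα', Ideal.span_singleton_mul_span_singleton])
    have hN := congrArg Ideal.absNorm hr''
    rw [map_mul, map_pow, map_pow, Ideal.absNorm_relNorm, Ideal.absNorm_span_singleton,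
      hζ.norm_toInteger_sub_one_of_eq_two_pow] at hN
    have hb : Ideal.absNorm (Ideal.span {r'}) ≠ 0 := fun e => hJ0 (Ideal.absNorm_eq_zero_iff.mp (by
      rw [e] at hN; simpa using hN))
    have ha : Ideal.absNorm J ≠ 0 := fun e => hJ0 (Ideal.absNorm_eq_zero_iff.mp e)
    have := congrArg (padicValNat 2) hN
    rw [padicValNat.mul (pow_ne_zero _ ha) (by decide), padicValNat.pow _ , padicValNat.pow _,
      show (2 : ℤ).natAbs = 2 from rfl, padicValNat.self one_lt_two] at this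
    omega

end FA.CycloTower
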