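import Fermat.Agent.CycloTower.Main
import Mathlib.NumberTheory.NumberField.Cyclotomic.PID

/-!
# The towers over `ℚ(i)` and `ℚ(ζ_3)`

Both fields have class number one and finite unit group, so both are good levels for the induction.
-/

set_option autoImplicit false

noncomputable section

open NumberField Units InfinitePlace Real
open scoped Nat

namespace FA.CycloTower

/-- With unit rank zero every unit is torsion. -/
theorem mem_torsion_of_rank_eq_zero {K : Type*} [Field K] [NumberField K] (h : rank K = 0) (u : (𝓞 K)ˣ) :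
    u ∈ torsion K := by
  obtain ⟨⟨x, e⟩, hxu, -⟩ := exist_unique_eq_mul_prod _ u
  have : IsEmpty (Fin (rank K)) := by rw [h]; infer_instance
  rw [hxu, Finset.univ_eq_empty, Finset.prod_empty, mul_one]
  exact x.2

/-- Torsion units are killed by the torsion order. -/
theorem pow_torsionOrder_eq_one {K : Type*} [Field K] [NumberField K] {u : (𝓞 K)ˣ} (hu : u ∈ torsion K) :
    u ^ torsionOrder K = 1 := by
  rwa [← rootsOfUnity_eq_torsion K, mem_rootsOfUnity] at hu

/-- A unit killed by the conductor is a power of `ζ`. -/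
theorem mem_levelUnits_of_pow_eq_one {p n : ℕ} [Fact p.Prime] {R : Type*} [CommRing R] [IsDomain R] {ζ : R}
    (hζ : IsPrimitiveRoot ζ (p ^ (n + 1))) {u : Rˣ} (hu : u ^ p ^ (n + 1) = 1) : u ∈ levelUnits p ζ := by
  have : NeZero (p ^ (n + 1)) := ⟨pow_ne_zero _ (Fact.out : p.Prime).ne_zero⟩
  obtain ⟨r, -, hr⟩ := hζ.eq_pow_of_pow_eq_one (ξ := (u : R)) (by
    rw [← Units.val_pow_eq_pow_val, hu, Units.val_one])
  obtain ⟨z, hz⟩ := hζ.isUnit (NeZero.ne _)
  rw [show u = z ^ r from Units.ext (by rw [Units.val_pow_eq_pow_val, hz, hr])]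
  exact pow_mem (zeta_mem_levelUnits hz) r

variable (K : Type) [Field K] [NumberField K]

/-- `ℚ(i)` is a good level. -/
theorem levelGood_four [IsCyclotomicExtension {2 ^ (1 + 1)} ℚ K] : LevelGood 2 1 K := by
  have hpid : IsPrincipalIdealRing (𝓞 K) := by
    apply RingOfIntegers.isPrincipalIdealRing_of_abs_discr_lt
    rw [IsCyclotomicExtension.Rat.discr_prime_pow 2 (1 + 1) K, IsCyclotomicExtension.Rat.finrank (2 ^ (1 + 1)) K,
      IsCyclotomicExtension.Rat.nrComplexPlaces_eq_totient_div_two (2 ^ (1 + 1)) K, show φ (2 ^ (1 + 1)) = 2 by decide]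
    norm_num
    nlinarith [pi_gt_three]
  have hrank : rank K = 0 := by
    rw [Units.rank, card_eq_nrRealPlaces_add_nrComplexPlaces,
      IsCyclotomicExtension.Rat.nrRealPlaces_eq_zero (n := 2 ^ (1 + 1)) K (by decide), zero_add,
      IsCyclotomicExtension.Rat.nrComplexPlaces_eq_totient_div_two (2 ^ (1 + 1)) K]
    rfl
  refine ⟨by rw [(classNumber_eq_one_iff (K := K)).mpr hpid]; decide, fun ζ hζ u => ?_⟩
  have h := pow_torsionOrder_eq_one (mem_torsion_of_rank_eq_zero hrank u)
  rw [IsCyclotomicExtension.Rat.torsionOrder_eq (n := 2 ^ (1 + 1)), if_pos (by decide)] at h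
  exact ⟨u, mem_levelUnits_of_pow_eq_one hζ h, 1, by rw [one_pow, mul_one]⟩

/-- `ℚ(ζ_3)` is a good level. -/
theorem levelGood_three [IsCyclotomicExtension {3 ^ (0 + 1)} ℚ K] : LevelGood 3 0 K := by
  have : IsCyclotomicExtension {3} ℚ K := by simpa using (inferInstance : IsCyclotomicExtension {3 ^ (0 + 1)} ℚ K)
  have hrank : rank K = 0 := by
    rw [Units.rank, card_eq_nrRealPlaces_add_nrComplexPlaces,
      IsCyclotomicExtension.Rat.nrRealPlaces_eq_zero (n := 3) K (by decide), zero_add,
      IsCyclotomicExtension.Rat.nrComplexPlaces_eq_totient_div_two 3]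
    rfl
  refine ⟨by rw [(classNumber_eq_one_iff (K := K)).mpr (IsCyclotomicExtension.Rat.three_pid K)]; decide,
    fun ζ hζ u => ?_⟩
  have h := pow_torsionOrder_eq_one (mem_torsion_of_rank_eq_zero hrank u)
  rw [IsCyclotomicExtension.Rat.torsionOrder_eq (n := 3), if_neg (by decide)] at h
  refine ⟨u ^ 4, mem_levelUnits_of_pow_eq_one hζ ?_, u⁻¹, ?_⟩
  · rw [← pow_mul, show 4 * 3 ^ (0 + 1) = 2 * 3 * 2 by rfl, pow_mul, h, one_pow]
  · rw [inv_pow, pow_succ', _root_.mul_inv_cancel_right]

/-- **The tower of `ℚ(i)`**. -/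
theorem levelGood_two_all (n : ℕ) (K : Type) [Field K] [NumberField K]
    [IsCyclotomicExtension {2 ^ (n + 1 + 1)} ℚ K] : LevelGood 2 (n + 1) K := by
  induction n generalizing K with
  | zero => exact levelGood_four K
  | succ n ih => exact levelGood_succ (Or.inr (by omega)) (fun K _ _ _ => ih K) K

/-- **The tower of `ℚ(ζ_3)`**. -/
theorem levelGood_three_all (n : ℕ) (K : Type) [Field K] [NumberField K]
    [IsCyclotomicExtension {3 ^ (n + 1)} ℚ K] : LevelGood 3 n K := by
  induction n generalizing K with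
  | zero => exact levelGood_three K
  | succ n ih => exact levelGood_succ (Or.inl (by decide)) (fun K _ _ _ => ih K) K

end FA.CycloTower
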